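import Mathlib

/-!
# Row LT, tower T6, leaf T6.29.C1 (CARTAN-C): the matrix core (helper283)

OFF-MAIN.  Mathlib only.

Two invertible complex `2 × 2` matrices `Y`, `Y'` with `‖det Y‖ = ‖det Y'‖` and
`Re tr (Yᴴ Y) = Re tr (Y'ᴴ Y')` are in the same double coset of `U(2)`: the Hermitian matrices
`Yᴴ Y` and `Y'ᴴ Y'` have the same trace and the same determinant, hence the same pair of
eigenvalues, hence they are conjugate under a unitary matrix `V` (spectral theorem), and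
`K = Y' V Y⁻¹` is unitary.
-/

set_option autoImplicit false

open scoped Matrix

namespace Fermat.Agent.LT.T6.H283

/-- Two pairs of real numbers with the same sum and the same product agree up to order. -/
theorem pair_eq_or_swap283 (a b c d : ℝ) (hs : a + b = c + d) (hp : a * b = c * d) :
    (c = a ∧ d = b) ∨ (c = b ∧ d = a) := by
  have h : (c - a) * (c - b) = 0 := by linear_combination (-c) * hs + hp
  rcases mul_eq_zero.1 h with h1 | h1
  · left
    have hc : c = a := by linarith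
    exact ⟨hc, by linarith⟩
  · right
    have hc : c = b := by linarith
    exact ⟨hc, by linarith⟩

/-- The swap matrix is unitary. -/
theorem swap_mem_unitary283 :
    (!![0, 1; 1, 0] : Matrix (Fin 2) (Fin 2) ℂ) ∈ Matrix.unitaryGroup (Fin 2) ℂ := by
  rw [Matrix.mem_unitaryGroup_iff]
  ext i j
  fin_cases i <;> fin_cases j <;>
    simp [Matrix.mul_apply, Fin.sum_univ_two, Matrix.star_eq_conjTranspose,
      Matrix.conjTranspose_apply]

/-- The swap matrix conjugates `diag (a, b)` to `diag (b, a)`. -/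
theorem swap_conj_diagonal283 (d d' : Fin 2 → ℂ) (h0 : d' 0 = d 1) (h1 : d' 1 = d 0) :
    (!![0, 1; 1, 0] : Matrix (Fin 2) (Fin 2) ℂ) * Matrix.diagonal d *
      star (!![0, 1; 1, 0] : Matrix (Fin 2) (Fin 2) ℂ) = Matrix.diagonal d' := by
  have hd : Matrix.diagonal d = !![d 0, 0; 0, d 1] := by
    ext i j
    fin_cases i <;> fin_cases j <;> simp
  have hd' : Matrix.diagonal d' = !![d 1, 0; 0, d 0] := by
    ext i j
    fin_cases i <;> fin_cases j <;> simp [h0, h1]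
  rw [hd, hd']
  ext i j
  fin_cases i <;> fin_cases j <;>
    simp [Matrix.mul_apply, Fin.sum_univ_two, Matrix.star_eq_conjTranspose,
      Matrix.conjTranspose_apply]

/-- Two Hermitian complex `2 × 2` matrices with the same trace and the same determinant are
conjugate under a unitary matrix. -/
theorem herm_conj283 (P P' : Matrix (Fin 2) (Fin 2) ℂ) (hP : P.IsHermitian)
    (hP' : P'.IsHermitian) (htr : P.trace.re = P'.trace.re) (hdet : P.det = P'.det) :
    ∃ V : Matrix.unitaryGroup (Fin 2) ℂ,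
      P' = (V : Matrix (Fin 2) (Fin 2) ℂ) * P * star (V : Matrix (Fin 2) (Fin 2) ℂ) := by
  -- the eigenvalues
  have hs : hP.eigenvalues 0 + hP.eigenvalues 1 = hP'.eigenvalues 0 + hP'.eigenvalues 1 := by
    have h1 := hP.trace_eq_sum_eigenvalues
    have h2 := hP'.trace_eq_sum_eigenvalues
    rw [Fin.sum_univ_two] at h1 h2
    rw [RCLike.ofReal_eq_complex_ofReal] at h1 h2
    have h1' := congrArg Complex.re h1
    have h2' := congrArg Complex.re h2
    simp only [Complex.add_re, Complex.ofReal_re] at h1' h2'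
    rw [← h1', ← h2', htr]
  have hp : hP.eigenvalues 0 * hP.eigenvalues 1 = hP'.eigenvalues 0 * hP'.eigenvalues 1 := by
    have h1 := hP.det_eq_prod_eigenvalues
    have h2 := hP'.det_eq_prod_eigenvalues
    rw [Fin.prod_univ_two, RCLike.ofReal_eq_complex_ofReal] at h1 h2
    have h3 : ((hP.eigenvalues 0 * hP.eigenvalues 1 : ℝ) : ℂ)
        = ((hP'.eigenvalues 0 * hP'.eigenvalues 1 : ℝ) : ℂ) := by
      rw [Complex.ofReal_mul, Complex.ofReal_mul, ← h1, ← h2, hdet]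
    exact_mod_cast h3
  -- the two diagonal matrices are conjugate under a unitary matrix
  have hW : ∃ W : Matrix.unitaryGroup (Fin 2) ℂ,
      Matrix.diagonal ((RCLike.ofReal : ℝ → ℂ) ∘ hP'.eigenvalues)
        = (W : Matrix (Fin 2) (Fin 2) ℂ) *
            Matrix.diagonal ((RCLike.ofReal : ℝ → ℂ) ∘ hP.eigenvalues) *
            star (W : Matrix (Fin 2) (Fin 2) ℂ) := by
    rcases pair_eq_or_swap283 _ _ _ _ hs hp with ⟨h0, h1⟩ | ⟨h0, h1⟩
    · refine ⟨1, ?_⟩
      have hfun : hP'.eigenvalues = hP.eigenvalues := by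
        funext i
        fin_cases i
        · exact h0
        · exact h1
      rw [hfun]
      simp
    · refine ⟨⟨_, swap_mem_unitary283⟩, ?_⟩
      exact (swap_conj_diagonal283 _ _ (by simp [h0]) (by simp [h1])).symm
  obtain ⟨W, hW⟩ := hW
  refine ⟨hP'.eigenvectorUnitary * W * star hP.eigenvectorUnitary, ?_⟩
  have e1 := hP'.spectral_theorem
  have e2 := hP.conjStarAlgAut_star_eigenvectorUnitary
  rw [Unitary.conjStarAlgAut_apply] at e1
  rw [Unitary.conjStarAlgAut_star_apply] at e2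
  rw [hW, ← e2] at e1
  conv_lhs => rw [e1]
  simp only [Matrix.mul_assoc, MulMemClass.coe_mul, Unitary.coe_star, star_mul, star_star]

/-- **The matrix core of CARTAN-C.** -/
theorem cartan_core283 (Y Y' : Matrix (Fin 2) (Fin 2) ℂ) (hY : IsUnit Y.det)
    (hdet : ‖Y.det‖ = ‖Y'.det‖) (htr : (Yᴴ * Y).trace.re = (Y'ᴴ * Y').trace.re) :
    ∃ K V : Matrix (Fin 2) (Fin 2) ℂ,
      K * Kᴴ = 1 ∧ Kᴴ * K = 1 ∧ V * Vᴴ = 1 ∧ Vᴴ * V = 1 ∧ Y' = K * Y * V := by
  have hdet' : (Yᴴ * Y).det = (Y'ᴴ * Y').det := by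
    rw [Matrix.det_mul, Matrix.det_mul, Matrix.det_conjTranspose, Matrix.det_conjTranspose]
    have hz : ∀ z : ℂ, star z * z = ((‖z‖ : ℝ) : ℂ) ^ 2 := fun z => by
      rw [RCLike.star_def, Complex.conj_mul']
    rw [hz, hz, hdet]
  obtain ⟨V, hV⟩ := herm_conj283 (Yᴴ * Y) (Y'ᴴ * Y')
    (Matrix.isHermitian_conjTranspose_mul_self Y) (Matrix.isHermitian_conjTranspose_mul_self Y')
    htr hdet'
  have hV1 : (V : Matrix (Fin 2) (Fin 2) ℂ) * (V : Matrix (Fin 2) (Fin 2) ℂ)ᴴ = 1 := by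
    rw [← Matrix.star_eq_conjTranspose]
    exact Unitary.coe_mul_star_self V
  have hV2 : (V : Matrix (Fin 2) (Fin 2) ℂ)ᴴ * (V : Matrix (Fin 2) (Fin 2) ℂ) = 1 := by
    rw [← Matrix.star_eq_conjTranspose]
    exact Unitary.coe_star_mul_self V
  rw [Matrix.star_eq_conjTranspose] at hV
  have hYi : Y * Y⁻¹ = 1 := Matrix.mul_nonsing_inv Y hY
  have hYi' : Y⁻¹ * Y = 1 := Matrix.nonsing_inv_mul Y hY
  set Vm : Matrix (Fin 2) (Fin 2) ℂ := (V : Matrix (Fin 2) (Fin 2) ℂ) with hVm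
  have hK : (Y' * Vm * Y⁻¹)ᴴ * (Y' * Vm * Y⁻¹) = 1 := by
    have h1 : (Y' * Vm * Y⁻¹)ᴴ * (Y' * Vm * Y⁻¹)
        = (Y⁻¹)ᴴ * (Vmᴴ * (Y'ᴴ * Y') * Vm) * Y⁻¹ := by
      simp only [Matrix.conjTranspose_mul, Matrix.mul_assoc]
    have h2 : Vmᴴ * (Y'ᴴ * Y') * Vm = Yᴴ * Y := by
      rw [hV]
      calc Vmᴴ * (Vm * (Yᴴ * Y) * Vmᴴ) * Vm
          = (Vmᴴ * Vm) * (Yᴴ * Y) * (Vmᴴ * Vm) := by simp only [Matrix.mul_assoc]
        _ = Yᴴ * Y := by rw [hV2, Matrix.one_mul, Matrix.mul_one]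
    rw [h1, h2]
    calc (Y⁻¹)ᴴ * (Yᴴ * Y) * Y⁻¹ = ((Y⁻¹)ᴴ * Yᴴ) * (Y * Y⁻¹) := by
          simp only [Matrix.mul_assoc]
      _ = 1 := by
          rw [← Matrix.conjTranspose_mul, hYi, Matrix.conjTranspose_one, Matrix.one_mul]
  refine ⟨Y' * Vm * Y⁻¹, Vmᴴ, mul_eq_one_comm.1 hK, hK, ?_, ?_, ?_⟩
  · rw [Matrix.conjTranspose_conjTranspose]; exact hV2
  · rw [Matrix.conjTranspose_conjTranspose]; exact hV1
  · calc Y' = Y' * (Vm * Vmᴴ) := by rw [hV1, Matrix.mul_one]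
      _ = Y' * Vm * (Y⁻¹ * Y) * Vmᴴ := by rw [hYi', Matrix.mul_one, Matrix.mul_assoc]
      _ = Y' * Vm * Y⁻¹ * Y * Vmᴴ := by simp only [Matrix.mul_assoc]

end Fermat.Agent.LT.T6.H283
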