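import Fermat.Agent.LT.T6.H830.HCSpec
import Fermat.Agent.LT.T6.H283.CartanCore

/-!
# Row LT, tower T6, leaf T6.29.C1 `CartanCC` (helper283, registry 1452)

OFF-MAIN.  `cartanCC283 : H830.CartanCC`, VERBATIM vs `T6/H830/HCSpec.lean`
(helper830@99e12b740, sha256 `c3e7d846…`), unconditional.  The mathematics is in
`CartanCore.lean` (Mathlib only).
-/

set_option autoImplicit false

open scoped Matrix

namespace Fermat.Agent.LT.T6.H283

open Fermat.Agent.LT.T6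

/-- **T6.29.C1 CARTAN-C**: two elements of `GL₂(ℂ)` with the same `|det|` and the same `rhoC`
lie in the same double coset of `U(2)`. -/
theorem cartanCC283 : H830.CartanCC := by
  intro y y' hdet hrho
  have hY : IsUnit (y : Matrix (Fin 2) (Fin 2) ℂ).det :=
    (Matrix.isUnit_iff_isUnit_det _).1 y.isUnit
  have hn : (2 * ‖(y : Matrix (Fin 2) (Fin 2) ℂ).det‖) ≠ 0 :=
    mul_ne_zero two_ne_zero (norm_ne_zero_iff.2 hY.ne_zero)
  have htr : ((y : Matrix (Fin 2) (Fin 2) ℂ)ᴴ * (y : Matrix (Fin 2) (Fin 2) ℂ)).trace.re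
      = ((y' : Matrix (Fin 2) (Fin 2) ℂ)ᴴ * (y' : Matrix (Fin 2) (Fin 2) ℂ)).trace.re := by
    have h := hrho
    unfold rhoC at h
    rw [← hdet] at h
    exact (div_left_inj' hn).1 h
  obtain ⟨K, V, hK1, hK2, hV1, hV2, hYY⟩ := cartan_core283 _ _ hY hdet htr
  refine ⟨⟨K, Kᴴ, hK1, hK2⟩, ⟨V, Vᴴ, hV1, hV2⟩, hK1, hV1, ?_⟩
  apply Units.ext
  rw [Units.val_mul, Units.val_mul]
  exact hYY

end Fermat.Agent.LT.T6.H283
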