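import Fermat.Agent.LT.T6.H626.AbelCut

/-!
# Row LT, tower T6, leaf T6.20a.1 `FamSmoothC626` (helper283, registry 1682)

OFF-MAIN.  `famSmoothC283 : H626.FamSmoothC626`, VERBATIM vs `T6/H626/AbelCut.lean`
(helper626@f2abbd58e, sha256 `6a4d529b…`), unconditional.

All square roots are square roots of positive smooth functions: `det > 0`,
`(ρ + 1 + v²)/2 ≥ 1/2` because `ρ = tr(yᵀ y)/(2 |det y|) ≥ 0`, and `x + 1 ≥ 1`.
-/

set_option autoImplicit false

open scoped Matrix ContDiff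

namespace Fermat.Agent.LT.T6.H283

open Fermat.Agent.LT.T6

/-- The real-to-complex coercion of a smooth function is smooth. -/
theorem ofReal_contDiff283 {E : Type*} [NormedAddCommGroup E] [NormedSpace ℝ E] {f : E → ℝ}
    (hf : ContDiff ℝ ∞ f) : ContDiff ℝ ∞ (fun p => ((f p : ℝ) : ℂ)) :=
  Complex.ofRealCLM.contDiff.comp hf

theorem trace_transpose_mul_self_nonneg283 (y : Matrix (Fin 2) (Fin 2) ℝ) :
    0 ≤ (y.transpose * y).trace := by
  rw [Matrix.trace_fin_two]
  simp only [Matrix.mul_apply, Fin.sum_univ_two, Matrix.transpose_apply]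
  nlinarith [mul_self_nonneg (y 0 0), mul_self_nonneg (y 1 0), mul_self_nonneg (y 0 1),
    mul_self_nonneg (y 1 1)]

theorem rhoM_nonneg283 (y : Matrix (Fin 2) (Fin 2) ℝ) : 0 ≤ H626.rhoM626 y := by
  unfold H626.rhoM626
  exact div_nonneg (trace_transpose_mul_self_nonneg283 y) (by positivity)

/-- **T6.20a.1 FAM-SMOOTH.** -/
theorem famSmoothC283 : H626.FamSmoothC626 := by
  intro m h hh hdet i j
  have htail : ContDiff ℝ ∞ (fun p : Fin (m + 1) → ℝ => (Fin.tail p : Fin m → ℝ)) := by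
    rw [contDiff_pi]
    intro k
    exact contDiff_apply ℝ ℝ (Fin.succ k)
  have he : ∀ i j : Fin 2, ContDiff ℝ ∞ (fun p : Fin (m + 1) → ℝ => h (Fin.tail p) i j) :=
    fun i j => (hh i j).comp htail
  have hv : ContDiff ℝ ∞ (fun p : Fin (m + 1) → ℝ => p 0) := contDiff_apply ℝ ℝ 0
  have hDpos : ∀ p : Fin (m + 1) → ℝ, 0 < (h (Fin.tail p)).det := fun p => hdet _
  have hD : ContDiff ℝ ∞ (fun p : Fin (m + 1) → ℝ => (h (Fin.tail p)).det) := by
    simp only [Matrix.det_fin_two]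
    exact ((he 0 0).mul (he 1 1)).sub ((he 0 1).mul (he 1 0))
  have hsD : ContDiff ℝ ∞ (fun p : Fin (m + 1) → ℝ => Real.sqrt (h (Fin.tail p)).det) :=
    hD.sqrt (fun p => (hDpos p).ne')
  have hssD : ContDiff ℝ ∞
      (fun p : Fin (m + 1) → ℝ => Real.sqrt (Real.sqrt (h (Fin.tail p)).det)) :=
    hsD.sqrt (fun p => (Real.sqrt_pos.2 (hDpos p)).ne')
  have h2Dpos : ∀ p : Fin (m + 1) → ℝ, 0 < 2 * (h (Fin.tail p)).det :=
    fun p => mul_pos two_pos (hDpos p)
  have hs2D : ContDiff ℝ ∞ (fun p : Fin (m + 1) → ℝ => Real.sqrt (2 * (h (Fin.tail p)).det)) :=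
    (contDiff_const.mul hD).sqrt (fun p => (h2Dpos p).ne')
  have hs2Dne : ∀ p : Fin (m + 1) → ℝ, Real.sqrt (2 * (h (Fin.tail p)).det) ≠ 0 :=
    fun p => (Real.sqrt_pos.2 (h2Dpos p)).ne'
  have hH1 : ContDiff ℝ ∞ (fun p : Fin (m + 1) → ℝ => H626.famH1_626 (h (Fin.tail p))) := by
    unfold H626.famH1_626
    exact ((he 0 0).sub (he 1 1)).div hs2D hs2Dne
  have hH2 : ContDiff ℝ ∞ (fun p : Fin (m + 1) → ℝ => H626.famH2_626 (h (Fin.tail p))) := by
    unfold H626.famH2_626
    exact ((he 0 1).add (he 1 0)).div hs2D hs2Dne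
  have htr : ContDiff ℝ ∞
      (fun p : Fin (m + 1) → ℝ => ((h (Fin.tail p)).transpose * h (Fin.tail p)).trace) := by
    simp only [Matrix.trace_fin_two, Matrix.mul_apply, Fin.sum_univ_two, Matrix.transpose_apply]
    exact (((he 0 0).mul (he 0 0)).add ((he 1 0).mul (he 1 0))).add
      (((he 0 1).mul (he 0 1)).add ((he 1 1).mul (he 1 1)))
  have hrho : ContDiff ℝ ∞ (fun p : Fin (m + 1) → ℝ => H626.rhoM626 (h (Fin.tail p))) := by
    unfold H626.rhoM626
    have habs : (fun p : Fin (m + 1) → ℝ => 2 * |(h (Fin.tail p)).det|)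
        = fun p => 2 * (h (Fin.tail p)).det := by
      funext p
      rw [abs_of_pos (hDpos p)]
    have hden : ContDiff ℝ ∞ (fun p : Fin (m + 1) → ℝ => 2 * |(h (Fin.tail p)).det|) := by
      rw [habs]
      exact contDiff_const.mul hD
    exact htr.div hden (fun p => by
      rw [abs_of_pos (hDpos p)]
      exact (h2Dpos p).ne')
  have hinpos : ∀ p : Fin (m + 1) → ℝ,
      0 < (H626.rhoM626 (h (Fin.tail p)) + 1 + p 0 ^ 2) / 2 := fun p => by
    have h1 := rhoM_nonneg283 (h (Fin.tail p))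
    have h2 := sq_nonneg (p 0)
    linarith
  have hx : ContDiff ℝ ∞
      (fun p : Fin (m + 1) → ℝ => H626.xv626 (H626.rhoM626 (h (Fin.tail p))) (p 0)) := by
    unfold H626.xv626
    exact (((hrho.add contDiff_const).add (hv.pow 2)).div_const 2).sqrt
      (fun p => (hinpos p).ne')
  have hx1pos : ∀ p : Fin (m + 1) → ℝ,
      0 < H626.xv626 (H626.rhoM626 (h (Fin.tail p))) (p 0) + 1 := fun p => by
    have : 0 ≤ H626.xv626 (H626.rhoM626 (h (Fin.tail p))) (p 0) := Real.sqrt_nonneg _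
    linarith
  have hsx1 : ContDiff ℝ ∞ (fun p : Fin (m + 1) → ℝ =>
      Real.sqrt (H626.xv626 (H626.rhoM626 (h (Fin.tail p))) (p 0) + 1)) :=
    (hx.add contDiff_const).sqrt (fun p => (hx1pos p).ne')
  have hscal : ContDiff ℝ ∞ (fun p : Fin (m + 1) → ℝ =>
      H626.famScal626 (h (Fin.tail p)) (H626.xv626 (H626.rhoM626 (h (Fin.tail p))) (p 0))) := by
    unfold H626.famScal626
    exact hssD.div (contDiff_const.mul hsx1)
      (fun p => mul_ne_zero two_ne_zero (Real.sqrt_pos.2 (hx1pos p)).ne')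
  have hA : ContDiff ℝ ∞ (fun p : Fin (m + 1) → ℝ =>
      Real.sqrt 2 * (H626.xv626 (H626.rhoM626 (h (Fin.tail p))) (p 0) + 1)) :=
    contDiff_const.mul (hx.add contDiff_const)
  have hI : ContDiff ℝ ∞ (fun p : Fin (m + 1) → ℝ => ((p 0 : ℝ) : ℂ) * Complex.I) :=
    (ofReal_contDiff283 hv).mul contDiff_const
  have hS := ofReal_contDiff283 hscal
  unfold H626.famMat626
  fin_cases i <;> fin_cases j
  · simp only [Fin.zero_eta, Fin.isValue, Matrix.smul_apply, Matrix.of_apply, Matrix.cons_val',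
      Matrix.cons_val_zero, Matrix.cons_val_fin_one, smul_eq_mul]
    exact hS.mul (ofReal_contDiff283 (hA.add hH1))
  · simp only [Fin.zero_eta, Fin.mk_one, Fin.isValue, Matrix.smul_apply, Matrix.of_apply,
      Matrix.cons_val', Matrix.cons_val_zero, Matrix.cons_val_one, Matrix.cons_val_fin_one,
      smul_eq_mul]
    exact hS.mul ((ofReal_contDiff283 hH2).sub hI)
  · simp only [Fin.zero_eta, Fin.mk_one, Fin.isValue, Matrix.smul_apply, Matrix.of_apply,
      Matrix.cons_val', Matrix.cons_val_zero, Matrix.cons_val_one, Matrix.cons_val_fin_one,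
      smul_eq_mul]
    exact hS.mul ((ofReal_contDiff283 hH2).add hI)
  · simp only [Fin.mk_one, Fin.isValue, Matrix.smul_apply, Matrix.of_apply, Matrix.cons_val',
      Matrix.cons_val_one, Matrix.cons_val_fin_one, smul_eq_mul]
    exact hS.mul (ofReal_contDiff283 (hA.sub hH1))

end Fermat.Agent.LT.T6.H283
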